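/-
S19, BIND (helper6281): inertia-fixed coordinates of residue discs, abstract form.

Setting of helper5516's `Abs/Defs.lean` (a constant reduction `(O, red)` of `F/K` onto `Fb/k`, a place map
`r` with conservation).  Let `x ∈ O` be a function whose pole divisor has the same degree as the pole
divisor of its reduction `x̄`.
* `ord_nonneg_of_red` : the poles of `x` reduce to poles of `x̄` (so `x` is regular on the residue disc of
  every place `Q` at which `x̄` is regular);
* `fixedCoords_of_sep` : if moreover almost all fibres of `x̄` are unramified (finite set `S`), `x` is fixed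
  by a group `I` of semilinear automorphisms and every constant of `k` has an `I`-fixed lift, then
  `Abs.FixedCoords red r I` holds: for `Q ∉ S ∪ {poles of x̄}` the function `x - a` (`a` an `I`-fixed lift
  of the value `x̄(Q)`) is an `I`-fixed coordinate of the disc of `Q`.
-/
import Fermat.Agent.S19.Abs.Defs

set_option autoImplicit false

namespace Fermat.Agent.S19.Bind6281

open AlgebraicCurve Fermat.Agent.RIN Fermat.Agent.S19

section MapDomain

variable {α β : Type*}

open Classical in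
theorem mapDomain_apply_eq_sum (r : α → β) (D : α →₀ ℤ) (Q : β) :
    Finsupp.mapDomain r D Q = ∑ P ∈ D.support, if r P = Q then D P else 0 := by
  rw [Finsupp.mapDomain, Finsupp.sum, Finsupp.finsetSum_apply]
  refine Finset.sum_congr rfl fun P _ => ?_
  rw [Finsupp.single_apply]

theorem mapDomain_nonneg (r : α → β) {D : α →₀ ℤ} (hD : ∀ P, 0 ≤ D P) (Q : β) :
    0 ≤ Finsupp.mapDomain r D Q := by
  classical
  rw [mapDomain_apply_eq_sum]
  refine Finset.sum_nonneg fun P _ => ?_
  split_ifs
  · exact hD P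
  · exact le_rfl

theorem le_mapDomain (r : α → β) {D : α →₀ ℤ} (hD : ∀ P, 0 ≤ D P) (P : α) :
    D P ≤ Finsupp.mapDomain r D (r P) := by
  classical
  rw [mapDomain_apply_eq_sum]
  by_cases hP : P ∈ D.support
  · have h := Finset.single_le_sum (f := fun P' => if r P' = r P then D P' else 0)
      (fun P' _ => by
        show 0 ≤ if r P' = r P then D P' else 0
        split_ifs
        · exact hD P'
        · exact le_rfl) hP
    simpa using h
  · rw [Finsupp.notMem_support_iff] at hP
    rw [hP]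
    refine Finset.sum_nonneg fun P' _ => ?_
    split_ifs
    · exact hD P'
    · exact le_rfl

end MapDomain

variable {K F k Fb : Type*} [Field K] [Field F] [Algebra K F] [Field k] [Field Fb] [Algebra k Fb]
variable {O : ValuationSubring F} {red : O →+* Fb}

/-- **Poles reduce to poles.**  If the pole divisors of `x ∈ O` and of its reduction have the same degree,
then `x` is regular at every place whose reduction is not a pole of `red x`. -/
theorem ord_nonneg_of_red (r : Place K F → Place k Fb) (hcons : Abs.Conserves red r)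
    (hrdeg : ∀ P, (r P).deg = P.deg) (hdegFb : ∀ Q : Place k Fb, Q.deg = 1)
    (x : F) (hxO : x ∈ O) (hx0 : red ⟨x, hxO⟩ ≠ 0)
    (D : Divisor K F) (hD : ∀ P, D P = P.ord x)
    (Dinf : Divisor K F) (hDinf : ∀ P, Dinf P = max 0 (-(P.ord x)))
    (Dbinf : Divisor k Fb) (hDbinf : ∀ Q, Dbinf Q = max 0 (-(Q.ord (red ⟨x, hxO⟩))))
    (hdeg : Divisor.degree Dinf = Divisor.degree Dbinf)
    (P : Place K F) (hP : 0 ≤ (r P).ord (red ⟨x, hxO⟩)) : 0 ≤ P.ord x := by
  have hDinf0 : ∀ P, 0 ≤ Dinf P := fun P => by rw [hDinf]; exact le_max_left _ _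
  -- the zero divisor
  have hZ : ∀ P, 0 ≤ (D + Dinf) P := fun P => by
    rw [Finsupp.add_apply, hD, hDinf]
    have := le_max_right 0 (-(P.ord x))
    omega
  have hle : ∀ Q, Dbinf Q ≤ Finsupp.mapDomain r Dinf Q := by
    intro Q
    have h1 := mapDomain_nonneg r hZ Q
    have h2 := mapDomain_nonneg r hDinf0 Q
    rw [Finsupp.mapDomain_add, Finsupp.add_apply, hcons x hxO hx0 D hD Q] at h1
    rw [hDbinf]
    exact max_le h2 (by omega)
  have heq : Dbinf = Finsupp.mapDomain r Dinf :=
    eq_of_le_of_degree_le hdegFb hle (by rw [degree_mapDomain r hrdeg, hdeg])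
  have h3 := le_mapDomain r hDinf0 P
  rw [← heq, hDbinf, max_eq_left (by omega), hDinf] at h3
  have := le_max_right 0 (-(P.ord x))
  omega

/-- **Inertia-fixed coordinates** from a separating function `x` fixed by `I`. -/
theorem fixedCoords_of_sep (r : Place K F → Place k Fb) (hcons : Abs.Conserves red r)
    (hrdeg : ∀ P, (r P).deg = P.deg) (hdegFb : ∀ Q : Place k Fb, Q.deg = 1)
    (I : Subgroup (SemilinearAut K F))
    (x : F) (hxO : x ∈ O) (hxI : ∀ σ ∈ I, σ • x = x)
    (hxb : ∀ c : k, red ⟨x, hxO⟩ ≠ algebraMap k Fb c)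
    (D : Divisor K F) (hD : ∀ P, D P = P.ord x)
    (Dinf : Divisor K F) (hDinf : ∀ P, Dinf P = max 0 (-(P.ord x)))
    (Dbinf : Divisor k Fb) (hDbinf : ∀ Q, Dbinf Q = max 0 (-(Q.ord (red ⟨x, hxO⟩))))
    (hdeg : Divisor.degree Dinf = Divisor.degree Dbinf)
    (S : Finset (Place k Fb))
    (hS : ∀ (c : k) (Q : Place k Fb), 0 < Q.ord (red ⟨x, hxO⟩ - algebraMap k Fb c) → Q ∉ S →
      Q.ord (red ⟨x, hxO⟩ - algebraMap k Fb c) = 1)
    (hlift : ∀ c : k, ∃ (a : K) (ha : algebraMap K F a ∈ O), red ⟨_, ha⟩ = algebraMap k Fb c ∧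
      ∀ σ ∈ I, σ • algebraMap K F a = algebraMap K F a) :
    Abs.FixedCoords red r I := by
  classical
  have hx0 : red ⟨x, hxO⟩ ≠ 0 := fun h => hxb 0 (by rw [h, map_zero])
  refine ⟨S ∪ Dbinf.support, fun Q hQ => ?_⟩
  rw [Finset.mem_union, not_or, Finsupp.notMem_support_iff] at hQ
  obtain ⟨hQS, hQinf⟩ := hQ
  have hQ0 : 0 ≤ Q.ord (red ⟨x, hxO⟩) := by
    rw [hDbinf] at hQinf
    have := le_max_right 0 (-(Q.ord (red ⟨x, hxO⟩)))
    omega
  obtain ⟨c, hc⟩ := exists_const_sub Q (hdegFb Q) (mem_of_ord_nonneg Q hQ0)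
  have hc' : 0 < Q.ord (red ⟨x, hxO⟩ - algebraMap k Fb c) :=
    hc.resolve_left (fun h => hxb c (sub_eq_zero.1 h))
  have hord := hS c Q hc' hQS
  obtain ⟨a, ha, hred, hfix⟩ := hlift c
  have hmem : x - algebraMap K F a ∈ O := sub_mem hxO ha
  refine ⟨x - algebraMap K F a, ⟨hmem, ?_, ?_⟩, ?_⟩
  · intro P hP
    have hP0 : 0 ≤ P.ord x :=
      ord_nonneg_of_red r hcons hrdeg hdegFb x hxO hx0 D hD Dinf hDinf Dbinf hDbinf hdeg P
        (by rw [hP]; exact hQ0)
    exact sub_mem (mem_of_ord_nonneg P hP0) (P.algebraMap_mem' a)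
  · intro h
    have e : (⟨x - algebraMap K F a, h⟩ : O) = ⟨x, hxO⟩ - ⟨algebraMap K F a, ha⟩ := Subtype.ext rfl
    rw [e, map_sub, hred]
    exact hord
  · intro σ hσ
    rw [smul_sub, hxI σ hσ, hfix σ hσ]

end Fermat.Agent.S19.Bind6281
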