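/-
S19, BIND (helper6281): the Gauss valuation ring `gaussO` (helper3463 `S37/RINB/GaussData.lean`, on
helper4649's `T4649.GaussRing`) has constant ring `A`, and the inertia group of `A`, acting
coefficientwise, preserves it and acts trivially on reductions.
* `constRing_gaussO` : `Abs.constRing L (gaussO A Fb Ft hGauss) = A`  (abstract S18 setting);
* `inertiaLike_gaussO` : `Abs.InertiaLike (gaussRedO …) ((A.inertiaSubgroupIn ℚ).map (arithmeticGalois F₀))`
  for `Fb = laurentBaseChange Qbar F₀`.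
-/
import Fermat.Agent.S37.RINB.GaussData
import Fermat.Agent.S19.Abs.Defs
import Fermat.Agent.S13.Val
import Fermat.Prelude.Def_ModularCurve_ArithmeticGalois

set_option autoImplicit false
set_option synthInstance.maxHeartbeats 400000

noncomputable section

namespace Fermat.Agent.S19.Bind6281

open ModularCurve AlgebraicCurve Fermat.Agent.S18 Fermat.Agent.S37.RINB

section Const

variable {L : Type*} [Field L] (A : ValuationSubring L)
variable (Fb : IntermediateField L (LaurentSeries L))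
variable (Ft : IntermediateField (IsLocalRing.ResidueField A)
  (LaurentSeries (IsLocalRing.ResidueField A)))
variable (hGauss : ∀ f : Fb, f ≠ 0 → ∃ (c : L) (y₁ y₂ : Adm A Fb Ft), c ≠ 0 ∧
  redOf A Fb Ft y₁ ≠ 0 ∧ redOf A Fb Ft y₂ ≠ 0 ∧
  f * genOf A Fb Ft y₂ = algebraMap L Fb c * genOf A Fb Ft y₁)

/-- The constants of the Gauss valuation ring are exactly `A`. -/
theorem constRing_gaussO : Abs.constRing L (gaussO A Fb Ft hGauss) = A := by
  ext a
  rw [Abs.mem_constRing]
  constructor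
  · intro ha
    by_contra haA
    have haA' : a⁻¹ ∈ A := (A.mem_or_inv_mem a).resolve_left haA
    have ha0 : a ≠ 0 := fun h0 => haA (h0 ▸ A.zero_mem)
    obtain ⟨h, hred⟩ := gaussRedO_const A Fb Ft hGauss ⟨a⁻¹, haA'⟩
    have hres : IsLocalRing.residue A ⟨a⁻¹, haA'⟩ = 0 := by
      rw [IsLocalRing.residue_eq_zero_iff, IsLocalRing.mem_maximalIdeal, mem_nonunits_iff]
      intro hu
      obtain ⟨b, hb⟩ := hu.exists_right_inv
      have hb' : a⁻¹ * (b : L) = 1 := congrArg Subtype.val hb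
      have : (b : L) = a := by
        rw [← mul_one a, ← hb', ← mul_assoc, mul_inv_cancel₀ ha0, one_mul]
      exact haA (this ▸ b.2)
    rw [hres, map_zero] at hred
    have hprod : (⟨algebraMap L Fb a, ha⟩ : gaussO A Fb Ft hGauss)
        * ⟨algebraMap L Fb ((⟨a⁻¹, haA'⟩ : A) : L), h⟩ = 1 := by
      apply Subtype.ext
      show algebraMap L Fb a * algebraMap L Fb a⁻¹ = 1
      rw [← map_mul, mul_inv_cancel₀ ha0, map_one]
    have := congrArg (gaussRedO A Fb Ft hGauss) hprod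
    rw [map_mul, hred, mul_zero, map_one] at this
    exact zero_ne_one this
  · intro ha
    exact (gaussRedO_const A Fb Ft hGauss ⟨a, ha⟩).1

end Const

section Inertia

variable (A : ValuationSubring (AlgebraicClosure ℚ))

/-- An element of the inertia group of `A`, restricted to `A`. -/
def inertiaHom (τ : AlgebraicClosure ℚ ≃ₐ[ℚ] AlgebraicClosure ℚ)
    (hτ : τ ∈ A.inertiaSubgroupIn ℚ) : A →+* A where
  toFun a := ⟨τ a, (Fermat.Agent.S13.inertia_mem A hτ a a.2).1⟩
  map_one' := Subtype.ext (map_one τ)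
  map_mul' a b := Subtype.ext (map_mul τ (a : AlgebraicClosure ℚ) (b : AlgebraicClosure ℚ))
  map_zero' := Subtype.ext (map_zero τ)
  map_add' a b := Subtype.ext (map_add τ (a : AlgebraicClosure ℚ) (b : AlgebraicClosure ℚ))

theorem subtype_comp_inertiaHom (τ : AlgebraicClosure ℚ ≃ₐ[ℚ] AlgebraicClosure ℚ)
    (hτ : τ ∈ A.inertiaSubgroupIn ℚ) :
    (A.subtype : A →+* AlgebraicClosure ℚ).comp (inertiaHom A τ hτ)
      = ((τ : AlgebraicClosure ℚ ≃ₐ[ℚ] AlgebraicClosure ℚ) :
          AlgebraicClosure ℚ →+* AlgebraicClosure ℚ).comp A.subtype :=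
  RingHom.ext fun _ => rfl

theorem residue_comp_inertiaHom (τ : AlgebraicClosure ℚ ≃ₐ[ℚ] AlgebraicClosure ℚ)
    (hτ : τ ∈ A.inertiaSubgroupIn ℚ) :
    (IsLocalRing.residue A).comp (inertiaHom A τ hτ) = IsLocalRing.residue A := by
  refine RingHom.ext fun a => ?_
  show IsLocalRing.residue A (inertiaHom A τ hτ a) = IsLocalRing.residue A a
  rw [← sub_eq_zero, ← map_sub, IsLocalRing.residue_eq_zero_iff]
  have h := (Fermat.Agent.S13.inertia_mem A hτ a a.2).2
  rw [← ValuationSubring.coe_mem_nonunits_iff]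
  exact h

variable (F₀ : IntermediateField ℚ (LaurentSeries ℚ))
variable (Ft : IntermediateField (IsLocalRing.ResidueField A)
  (LaurentSeries (IsLocalRing.ResidueField A)))

/-- The inertia group acts on admissible series, coefficientwise. -/
theorem inertia_mem_Adm (τ : AlgebraicClosure ℚ ≃ₐ[ℚ] AlgebraicClosure ℚ)
    (hτ : τ ∈ A.inertiaSubgroupIn ℚ)
    (y : Adm A (laurentBaseChange (AlgebraicClosure ℚ) F₀) Ft) :
    coeffMap (inertiaHom A τ hτ) (y : LaurentSeries A)
      ∈ Adm A (laurentBaseChange (AlgebraicClosure ℚ) F₀) Ft := by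
  rw [mem_Adm, coeffMap_coeffMap, coeffMap_coeffMap, subtype_comp_inertiaHom,
    residue_comp_inertiaHom, ← coeffMap_coeffMap]
  exact ⟨coeffMap_mem_laurentBaseChange τ y.2.1, y.2.2⟩

/-- The coefficientwise action of an inertia element on admissible series. -/
def inertiaAdm (τ : AlgebraicClosure ℚ ≃ₐ[ℚ] AlgebraicClosure ℚ)
    (hτ : τ ∈ A.inertiaSubgroupIn ℚ)
    (y : Adm A (laurentBaseChange (AlgebraicClosure ℚ) F₀) Ft) :
    Adm A (laurentBaseChange (AlgebraicClosure ℚ) F₀) Ft :=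
  ⟨_, inertia_mem_Adm A F₀ Ft τ hτ y⟩

theorem genHom_inertiaAdm (τ : AlgebraicClosure ℚ ≃ₐ[ℚ] AlgebraicClosure ℚ)
    (hτ : τ ∈ A.inertiaSubgroupIn ℚ)
    (y : Adm A (laurentBaseChange (AlgebraicClosure ℚ) F₀) Ft) :
    T4649.genHom A _ Ft (inertiaAdm A F₀ Ft τ hτ y)
      = arithmeticGalois F₀ τ • T4649.genHom A _ Ft y := by
  apply Subtype.ext
  rw [coe_arithmeticGalois_smul]
  show coeffMap A.subtype (coeffMap (inertiaHom A τ hτ) (y : LaurentSeries A))
    = coeffMap _ (coeffMap A.subtype (y : LaurentSeries A))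
  rw [coeffMap_coeffMap, coeffMap_coeffMap, subtype_comp_inertiaHom]

theorem redHom_inertiaAdm (τ : AlgebraicClosure ℚ ≃ₐ[ℚ] AlgebraicClosure ℚ)
    (hτ : τ ∈ A.inertiaSubgroupIn ℚ)
    (y : Adm A (laurentBaseChange (AlgebraicClosure ℚ) F₀) Ft) :
    T4649.redHom A _ Ft (inertiaAdm A F₀ Ft τ hτ y) = T4649.redHom A _ Ft y := by
  apply Subtype.ext
  show coeffMap (IsLocalRing.residue A) (coeffMap (inertiaHom A τ hτ) (y : LaurentSeries A))
    = coeffMap (IsLocalRing.residue A) (y : LaurentSeries A)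
  rw [coeffMap_coeffMap, residue_comp_inertiaHom]

/-- The Gauss relation is stable under the coefficientwise action of inertia. -/
theorem gaussRel_inertia (τ : AlgebraicClosure ℚ ≃ₐ[ℚ] AlgebraicClosure ℚ)
    (hτ : τ ∈ A.inertiaSubgroupIn ℚ)
    {f : laurentBaseChange (AlgebraicClosure ℚ) F₀} {φ : Ft}
    (h : T4649.GaussRel A (laurentBaseChange (AlgebraicClosure ℚ) F₀) Ft f φ) :
    T4649.GaussRel A (laurentBaseChange (AlgebraicClosure ℚ) F₀) Ft
      (arithmeticGalois F₀ τ • f) φ := by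
  obtain ⟨y₁, y₂, hy₂, hf, hφ⟩ := h
  refine ⟨inertiaAdm A F₀ Ft τ hτ y₁, inertiaAdm A F₀ Ft τ hτ y₂, ?_, ?_, ?_⟩
  · rw [redHom_inertiaAdm]; exact hy₂
  · rw [genHom_inertiaAdm, genHom_inertiaAdm, ← smul_mul', hf]
  · rw [redHom_inertiaAdm, redHom_inertiaAdm]; exact hφ

variable (hGauss : ∀ f : laurentBaseChange (AlgebraicClosure ℚ) F₀, f ≠ 0 →
  ∃ (c : AlgebraicClosure ℚ) (y₁ y₂ : Adm A (laurentBaseChange (AlgebraicClosure ℚ) F₀) Ft), c ≠ 0 ∧
  redOf A _ Ft y₁ ≠ 0 ∧ redOf A _ Ft y₂ ≠ 0 ∧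
  f * genOf A _ Ft y₂ = algebraMap (AlgebraicClosure ℚ) _ c * genOf A _ Ft y₁)

/-- **Inertia acts like inertia on the Gauss ring**: it preserves `gaussO` and the reduction. -/
theorem inertiaLike_gaussO :
    Abs.InertiaLike (gaussRedO A (laurentBaseChange (AlgebraicClosure ℚ) F₀) Ft hGauss)
      ((A.inertiaSubgroupIn ℚ).map (arithmeticGalois F₀)) := by
  rintro _ ⟨τ, hτ, rfl⟩ f hf
  obtain ⟨φ, hφ⟩ := hf
  have h' := gaussRel_inertia A F₀ Ft τ hτ hφ
  refine ⟨⟨φ, h'⟩, ?_⟩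
  rw [gaussRedO_eq A _ Ft hGauss h']
  exact (gaussRedO_eq A _ Ft hGauss hφ).symm

end Inertia

end Fermat.Agent.S19.Bind6281
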