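/-
S19, BIND (helper6281): rank one for a valuation subring `A` of `Qbar` over `ℓ`.
* `exists_pow_mul_inv_mem` : every nonzero algebraic number divides a power of `ℓ` in `A`;
* `exists_pow_mul_inv_prime_mem` : a power of every element of the maximal ideal is divisible by `ℓ`.
Elementary proofs from a primitive integer equation (no completions).  Landed S13/Val + Mathlib only.
-/
import Fermat.Agent.S13.Val

set_option autoImplicit false

namespace Fermat.Agent.S19.Bind6281

open Polynomial

/-- Every nonzero algebraic number is a root of a primitive integer polynomial with nonzero constant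
coefficient. -/
theorem exists_primitive_aeval (b : AlgebraicClosure ℚ) (hb : b ≠ 0) :
    ∃ g : Polynomial ℤ, g.IsPrimitive ∧ g.coeff 0 ≠ 0 ∧ Polynomial.aeval b g = 0 := by
  have h1 : IsAlgebraic ℤ b :=
    (IsFractionRing.isAlgebraic_iff ℤ ℚ (AlgebraicClosure ℚ)).2 (Algebra.IsAlgebraic.isAlgebraic b)
  obtain ⟨f, hf0, hfb⟩ := h1
  -- strong induction on the degree
  have key : ∀ n : ℕ, ∀ f : Polynomial ℤ, f.natDegree = n → f ≠ 0 → Polynomial.aeval b f = 0 →
      ∃ g : Polynomial ℤ, g.IsPrimitive ∧ g.coeff 0 ≠ 0 ∧ Polynomial.aeval b g = 0 := by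
    intro n
    induction n using Nat.strong_induction_on with
    | _ n ih =>
      intro f hn hf0 hfb
      by_cases hc : f.coeff 0 = 0
      · -- divide by `X`
        have hX : X ∣ f := Polynomial.X_dvd_iff.2 hc
        obtain ⟨f', rfl⟩ := hX
        have hf'0 : f' ≠ 0 := fun h => hf0 (by rw [h, mul_zero])
        have hdeg : f'.natDegree < n := by
          rw [← hn, Polynomial.natDegree_X_mul hf'0]
          exact Nat.lt_succ_self _
        have hfb' : Polynomial.aeval b f' = 0 := by
          rw [map_mul, Polynomial.aeval_X] at hfb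
          exact (mul_eq_zero.1 hfb).resolve_left hb
        exact ih _ hdeg f' rfl hf'0 hfb'
      · have hcont : f.content ≠ 0 := fun h => hf0 (Polynomial.content_eq_zero_iff.1 h)
        refine ⟨f.primPart, f.isPrimitive_primPart, ?_, ?_⟩
        · intro h0
          apply hc
          conv_lhs => rw [f.eq_C_content_mul_primPart]
          rw [Polynomial.coeff_C_mul, h0, mul_zero]
        · have h2 : Polynomial.aeval b f
              = (f.content : AlgebraicClosure ℚ) * Polynomial.aeval b f.primPart := by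
            conv_lhs => rw [f.eq_C_content_mul_primPart]
            rw [map_mul, Polynomial.aeval_C]
            simp
          rw [h2] at hfb
          rcases mul_eq_zero.1 hfb with h3 | h3
          · exact absurd (by exact_mod_cast h3) hcont
          · exact h3
  exact key _ f rfl hf0 hfb

variable (A : ValuationSubring (AlgebraicClosure ℚ))

theorem valuation_intCast_le_one (n : ℤ) : A.valuation (n : AlgebraicClosure ℚ) ≤ 1 :=
  (A.valuation_le_one_iff _).2 (Fermat.Agent.S13.intCast_mem A n)

/-- **Rank one, first half**: every nonzero algebraic number divides a power of `ℓ` in `A`. -/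
theorem exists_pow_mul_inv_mem {ℓ : ℕ} [Fact ℓ.Prime] (hA : A.LiesOverPrime ℓ)
    (a : AlgebraicClosure ℚ) (ha : a ≠ 0) :
    ∃ n : ℕ, (ℓ : AlgebraicClosure ℚ) ^ n * a⁻¹ ∈ A := by
  have hℓ : ℓ.Prime := Fact.out
  by_cases hinv : a⁻¹ ∈ A
  · exact ⟨0, by rw [pow_zero, one_mul]; exact hinv⟩
  have haA : a ∈ A := (A.mem_or_inv_mem a).resolve_right hinv
  have hv1 : A.valuation a ≤ 1 := (A.valuation_le_one_iff a).2 haA
  obtain ⟨g, -, hg0, hga⟩ := exists_primitive_aeval a ha
  -- `c₀ = - ∑_{j ≥ 1} c_j a^j`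
  have hsum : Polynomial.aeval a g = ∑ j ∈ g.support, (g.coeff j : AlgebraicClosure ℚ) * a ^ j := by
    rw [Polynomial.aeval_def, Polynomial.eval₂_eq_sum, Polynomial.sum_def]
    rfl
  have h0mem : 0 ∈ g.support := Polynomial.mem_support_iff.2 hg0
  rw [hsum, ← Finset.add_sum_erase _ _ h0mem, pow_zero, mul_one] at hga
  have hc0 : (g.coeff 0 : AlgebraicClosure ℚ)
      = -∑ j ∈ g.support.erase 0, (g.coeff j : AlgebraicClosure ℚ) * a ^ j :=
    eq_neg_of_add_eq_zero_left hga
  have hle : A.valuation (g.coeff 0 : AlgebraicClosure ℚ) ≤ A.valuation a := by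
    rw [hc0, Valuation.map_neg]
    refine Valuation.map_sum_le _ fun j hj => ?_
    have hj0 : j ≠ 0 := (Finset.mem_erase.1 hj).1
    rw [map_mul, map_pow]
    calc A.valuation (g.coeff j : AlgebraicClosure ℚ) * A.valuation a ^ j
        ≤ 1 * A.valuation a ^ j := by gcongr; exact valuation_intCast_le_one A _
      _ = A.valuation a ^ j := one_mul _
      _ ≤ A.valuation a ^ 1 := pow_le_pow_of_le_one zero_le hv1 (Nat.one_le_iff_ne_zero.2 hj0)
      _ = A.valuation a := pow_one _
  rw [Fermat.Agent.S13.valuation_intCast A hA hℓ _ hg0] at hle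
  refine ⟨padicValInt ℓ (g.coeff 0), ?_⟩
  rw [← A.valuation_le_one_iff, map_mul, map_pow, map_inv₀]
  have hva : A.valuation a ≠ 0 := (Valuation.ne_zero_iff _).2 ha
  rw [← div_eq_mul_inv]
  exact (div_le_one₀ (zero_lt_iff.2 hva)).2 hle

/-- **Rank one, second half**: a power of every element of the maximal ideal of `A` is divisible
by `ℓ`. -/
theorem exists_pow_mul_inv_prime_mem {ℓ : ℕ} [Fact ℓ.Prime] (hA : A.LiesOverPrime ℓ)
    (b : AlgebraicClosure ℚ) (hb : b ∈ A.nonunits) :
    ∃ n : ℕ, b ^ n * (ℓ : AlgebraicClosure ℚ)⁻¹ ∈ A := by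
  have hℓ : ℓ.Prime := Fact.out
  rcases eq_or_ne b 0 with rfl | hb0
  · exact ⟨1, by rw [pow_one, zero_mul]; exact A.zero_mem⟩
  have hvb : A.valuation b < 1 := (ValuationSubring.mem_nonunits_iff A).1 hb
  have hvb0 : A.valuation b ≠ 0 := (Valuation.ne_zero_iff _).2 hb0
  have hvℓ0 : A.valuation (ℓ : AlgebraicClosure ℚ) ≠ 0 :=
    Fermat.Agent.S13.valuation_prime_ne_zero A hℓ
  obtain ⟨g, hprim, -, hgb⟩ := exists_primitive_aeval b hb0
  -- an index with coefficient prime to `ℓ`
  have hex : ∃ i, ¬ (ℓ : ℤ) ∣ g.coeff i := by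
    by_contra hcon
    push Not at hcon
    have hC : C (ℓ : ℤ) ∣ g := (Polynomial.C_dvd_iff_dvd_coeff _ _).2 hcon
    exact (Nat.prime_iff_prime_int.mp hℓ).not_isUnit (hprim _ hC)
  classical
  let i := Nat.find hex
  have hi : ¬ (ℓ : ℤ) ∣ g.coeff i := Nat.find_spec hex
  have hmin : ∀ j < i, (ℓ : ℤ) ∣ g.coeff j := fun j hj => by
    have := Nat.find_min hex hj
    exact not_not.1 this
  refine ⟨i, ?_⟩
  rw [← A.valuation_le_one_iff, map_mul, map_pow, map_inv₀, ← div_eq_mul_inv,
    div_le_one₀ (zero_lt_iff.2 hvℓ0)]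
  by_contra hlt
  rw [not_le] at hlt
  have hci : A.valuation (g.coeff i : AlgebraicClosure ℚ) = 1 :=
    Fermat.Agent.S13.valuation_intCast_eq_one A hA hℓ _ hi
  have hsum : Polynomial.aeval b g = ∑ j ∈ g.support, (g.coeff j : AlgebraicClosure ℚ) * b ^ j := by
    rw [Polynomial.aeval_def, Polynomial.eval₂_eq_sum, Polynomial.sum_def]
    rfl
  have himem : i ∈ g.support :=
    Polynomial.mem_support_iff.2 (fun h => hi (by rw [h]; exact dvd_zero _))
  rw [hsum, ← Finset.add_sum_erase _ _ himem] at hgb
  have hterm : (g.coeff i : AlgebraicClosure ℚ) * b ^ i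
      = -∑ j ∈ g.support.erase i, (g.coeff j : AlgebraicClosure ℚ) * b ^ j :=
    eq_neg_of_add_eq_zero_left hgb
  have hpos : A.valuation b ^ i ≠ 0 := pow_ne_zero _ hvb0
  have hltsum : A.valuation (∑ j ∈ g.support.erase i, (g.coeff j : AlgebraicClosure ℚ) * b ^ j)
      < A.valuation b ^ i := by
    refine Valuation.map_sum_lt _ hpos fun j hj => ?_
    have hji : j ≠ i := (Finset.mem_erase.1 hj).1
    rw [map_mul, map_pow]
    rcases lt_or_gt_of_ne hji with hlt' | hgt
    · -- `ℓ ∣ c_j`
      obtain ⟨m, hm⟩ := hmin j hlt'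
      have h1 : A.valuation (g.coeff j : AlgebraicClosure ℚ)
          ≤ A.valuation (ℓ : AlgebraicClosure ℚ) := by
        rw [hm]
        push_cast
        rw [map_mul]
        calc A.valuation (ℓ : AlgebraicClosure ℚ) * A.valuation (m : AlgebraicClosure ℚ)
            ≤ A.valuation (ℓ : AlgebraicClosure ℚ) * 1 := by
              gcongr; exact valuation_intCast_le_one A _
          _ = _ := mul_one _
      calc A.valuation (g.coeff j : AlgebraicClosure ℚ) * A.valuation b ^ j
          ≤ A.valuation (ℓ : AlgebraicClosure ℚ) * 1 := by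
            gcongr
            exact pow_le_one₀ zero_le hvb.le
        _ = A.valuation (ℓ : AlgebraicClosure ℚ) := mul_one _
        _ < A.valuation b ^ i := hlt
    · calc A.valuation (g.coeff j : AlgebraicClosure ℚ) * A.valuation b ^ j
          ≤ 1 * A.valuation b ^ j := by gcongr; exact valuation_intCast_le_one A _
        _ = A.valuation b ^ j := one_mul _
        _ < A.valuation b ^ i := pow_lt_pow_right_of_lt_one₀ (zero_lt_iff.2 hvb0) hvb hgt
  have := congrArg A.valuation hterm
  rw [map_mul, hci, one_mul, map_pow, Valuation.map_neg] at this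
  rw [this] at hltsum
  exact lt_irrefl _ hltsum

end Fermat.Agent.S19.Bind6281
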