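/-
S19, BIND (helper6281): the Deuring data of `X₀(N)` at a valuation ring `A` over `ℓ ∤ N`.

`modular_setup hℓN hA` : for the Gauss valuation ring `O = gaussO` of `F_N(Qbar)` with its reduction
`red = gaussRedO` onto `F_N(k)` (helper3463's `S37/RINB`, on the frozen S18 exports) there are `g` and a place
map `r` with
* `Abs.Setup hO g r ℓ`  (RIN hypotheses `Hyp`, conservation, rank one of `A`),
* `Abs.constRing Qbar O = A`,
* `Abs.InertiaLike red I`, `Abs.FixedCoords red r I` for `I` = image of the inertia group of `A`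
  under the coefficientwise action `arithmeticGalois`.
This is the content of `Abs.exists_modular_setup` (helper5516's ABS skeleton, piece 17).
-/
import Fermat.Agent.S37.RINB.Modular
import Fermat.Agent.S19.Bind6281.RankOne
import Fermat.Agent.S19.Bind6281.Gauss
import Fermat.Agent.S19.Bind6281.Coords
import Fermat.Agent.S19.Rur4572.Basic
import Fermat.Agent.S19.G2x356.Unram

set_option autoImplicit false
set_option synthInstance.maxHeartbeats 400000

noncomputable section

namespace Fermat.Agent.S19.Bind6281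

open ModularCurve AlgebraicCurve IntermediateField Fermat.Agent.S18 Fermat.Agent.S37.RINB
  Fermat.Agent.RIN

variable {ℓ : ℕ} [Fact ℓ.Prime] {A : ValuationSubring (AlgebraicClosure ℚ)} {N : ℕ} [NeZero N]

/-- Riemann's constants agree, with a natural number constant. -/
theorem exists_riemann_constants_nat (hℓN : ¬ ℓ ∣ N) (hA : A.LiesOverPrime ℓ) :
    ∃ g : ℕ,
      (∀ D : Divisor (AlgebraicClosure ℚ) (Fb N),
        Divisor.degree D + 1 - (g : ℤ) ≤
          (Module.finrank (AlgebraicClosure ℚ) (riemannRochSpace D) : ℤ)) ∧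
      (∀ E : Divisor (IsLocalRing.ResidueField A) (Ft A N),
        Divisor.degree E + 1 - (g : ℤ) ≤
          (Module.finrank (IsLocalRing.ResidueField A) (riemannRochSpace E) : ℤ)) ∧
      (∃ c : ℤ, ∀ E : Divisor (IsLocalRing.ResidueField A) (Ft A N), c ≤ Divisor.degree E →
        (Module.finrank (IsLocalRing.ResidueField A) (riemannRochSpace E) : ℤ) ≤
          Divisor.degree E + 1 - (g : ℤ)) := by
  haveI := MODFF4186.isAlgClosed_residueField A
  haveI := MODFF4186.finiteDimensional_jb N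
  haveI := MODFF4186.isSeparable_jb N
  haveI := finiteDimensional_Ft hℓN hA
  haveI := isSeparable_Ft hℓN hA
  obtain ⟨gb, hfinb, hdimb, -, -⟩ := rt_riemann (jb N) (MODFF4186.transcendental_jb N)
  obtain ⟨gt, hfint, hdimt, -, -⟩ := rt_riemann (jt A N) (transcendental_jt hA)
  have hle := MODFF4186.genus_le hℓN hA gb gt hfinb hdimb hfint hdimt
  obtain ⟨-, hRb, -, -⟩ := riemann_of_rt (jb N) (MODFF4186.transcendental_jb N) gb hfinb hdimb
  obtain ⟨-, hRt, hEt, -⟩ := riemann_of_rt (jt A N) (transcendental_jt hA) gt hfint hdimt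
  refine ⟨gt, fun D => ?_, hRt, hEt⟩
  have h1 := hRb D
  have h2 : (gb : ℤ) ≤ gt := by exact_mod_cast hle
  linarith

omit [Fact ℓ.Prime] in
/-- `j` is fixed by the coefficientwise Galois action. -/
theorem arithmeticGalois_smul_jb (τ : AlgebraicClosure ℚ ≃ₐ[ℚ] AlgebraicClosure ℚ) :
    arithmeticGalois (modularFunctionFieldFull N) τ • jb N = jb N := by
  apply Subtype.ext
  rw [coe_arithmeticGalois_smul]
  exact coeffMap_coeffEmb τ jq

/-- **BIND**: the Deuring data of the modular function field at `A`. -/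
theorem modular_setup (hℓN : ¬ ℓ ∣ N) (hA : A.LiesOverPrime ℓ) :
    ∃ (hO : IsConstRed (AlgebraicClosure ℚ) (IsLocalRing.ResidueField A)
        (gaussO A (Fb N) (Ft A N) (MODFF4186.gauss_Fb (N := N) hℓN hA))
        (gaussRedO A (Fb N) (Ft A N) (MODFF4186.gauss_Fb (N := N) hℓN hA))) (g : ℕ)
      (r : Place (AlgebraicClosure ℚ) (Fb N) → Place (IsLocalRing.ResidueField A) (Ft A N)),
      Abs.Setup hO g r (ℓ : AlgebraicClosure ℚ) ∧
      Abs.constRing (AlgebraicClosure ℚ)
        (gaussO A (Fb N) (Ft A N) (MODFF4186.gauss_Fb (N := N) hℓN hA)) = A ∧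
      Abs.InertiaLike (gaussRedO A (Fb N) (Ft A N) (MODFF4186.gauss_Fb (N := N) hℓN hA))
        ((A.inertiaSubgroupIn ℚ).map (arithmeticGalois (modularFunctionFieldFull N))) ∧
      Abs.FixedCoords (gaussRedO A (Fb N) (Ft A N) (MODFF4186.gauss_Fb (N := N) hℓN hA)) r
        ((A.inertiaSubgroupIn ℚ).map (arithmeticGalois (modularFunctionFieldFull N))) := by
  have hℓ : ℓ.Prime := Fact.out
  set hG := MODFF4186.gauss_Fb (N := N) hℓN hA
  have hO := isConstRed_gaussO A (Fb N) (Ft A N) hG (gaussRedO_surjective hℓN hA)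
  obtain ⟨hx, hredx⟩ := gaussRedO_gen A (Fb N) (Ft A N) hG (MODFF4186.jAdm A N)
  rw [Fermat.Agent.S18.MODFF4186.redOf_jAdm] at hredx
  have hx' : jb N ∈ gaussO A (Fb N) (Ft A N) hG := by
    rw [← MODFF4186.genOf_jAdm A N]; exact hx
  have hredx' : gaussRedO A (Fb N) (Ft A N) hG ⟨jb N, hx'⟩ = jt A N := by
    rw [← hredx]
    congr 1
    exact Subtype.ext (MODFF4186.genOf_jAdm A N).symm
  haveI := MODFF4186.isAlgClosed_residueField A
  haveI := MODFF4186.finiteDimensional_jb N
  haveI := MODFF4186.isSeparable_jb N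
  haveI hfdt := finiteDimensional_Ft (N := N) hℓN hA
  haveI hsept := isSeparable_Ft (N := N) hℓN hA
  haveI : FiniteDimensional (IsLocalRing.ResidueField A)⟮gaussRedO A (Fb N) (Ft A N) hG ⟨jb N, hx'⟩⟯
      (Ft A N) := by
    rw [hredx']
    exact finiteDimensional_Ft hℓN hA
  have hlat := Fermat.Agent.RIN.LatticeGauss1014.hlat_of_finrank_le hO (jb N) hx'
    (by rw [hredx']; exact transcendental_jt hA)
    (by rw [hredx']; exact (finrank_Ft (N := N) hℓN hA).ge)
  haveI := infinite_residueField A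
  haveI := nonempty_place_Fb N
  haveI := nonempty_place_Ft (N := N) hℓN hA
  haveI := hasPrincipalDivisors_Fb N
  haveI := hasPrincipalDivisors_Ft (N := N) hℓN hA
  obtain ⟨g, hRF, hRFb, hRFb'⟩ := exists_riemann_constants_nat (N := N) hℓN hA
  have hdegFb : ∀ Q : Place (IsLocalRing.ResidueField A) (Ft A N), Q.deg = 1 :=
    MODFF4186.deg_Ft hℓN hA
  have H : Hyp hO (g : ℤ) :=
    ⟨fun P => MODFF4186.deg_Fb P, hdegFb, hRF, hRFb, hRFb', hlat⟩
  obtain ⟨r, hrdeg, hr⟩ := exists_placeReduction_of_hyp H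
  have hconst := constRing_gaussO A (Fb N) (Ft A N) hG
  refine ⟨hO, g, r, ?_, hconst, inertiaLike_gaussO A (modularFunctionFieldFull N) (Ft A N) hG, ?_⟩
  · -- `Setup`
    refine ⟨H, hr, ?_, Nat.cast_ne_zero.2 hℓ.ne_zero, ?_, ?_⟩
    · rw [hconst]
      exact A.nonunits_subset hA
    · intro a ha
      rw [hconst]
      exact exists_pow_mul_inv_mem A hA a ha
    · intro b hb
      rw [hconst] at hb ⊢
      exact exists_pow_mul_inv_prime_mem A hA b hb
  · -- `FixedCoords`
    have hxt : Transcendental (IsLocalRing.ResidueField A) (jt A N) := transcendental_jt hA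
    have hxb : Transcendental (AlgebraicClosure ℚ) (jb N) := MODFF4186.transcendental_jb N
    obtain ⟨D, hD⟩ := rt_exists_divisor (jb N) hxb (jb N)
      (fun h => hxb (h ▸ isAlgebraic_zero))
    obtain ⟨Dinf, hDinf, hdegDinf⟩ := rt_pole_divisor (jb N) hxb
    obtain ⟨Dbinf, hDbinf, hdegDbinf⟩ := rt_pole_divisor (jt A N) hxt
    obtain ⟨S, hS⟩ := Fermat.Agent.S19.Unram356.exists_finset_simple_zeros (jt A N) hxt
    refine fixedCoords_of_sep r hr hrdeg hdegFb _ (jb N) hx' ?_ ?_ D hD Dinf hDinf Dbinf ?_ ?_ S ?_ ?_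
    · rintro _ ⟨τ, -, rfl⟩
      exact arithmeticGalois_smul_jb τ
    · intro c hc
      rw [hredx'] at hc
      exact hxt (hc ▸ isAlgebraic_algebraMap c)
    · rw [hredx']
      exact hDbinf
    · rw [hdegDinf, hdegDbinf, finrank_Ft (N := N) hℓN hA]
    · rw [hredx']
      exact hS
    · intro c
      obtain ⟨a₀, rfl⟩ := IsLocalRing.residue_surjective c
      obtain ⟨a', ha'A, hfix, hcong⟩ :=
        Fermat.Agent.S19.Rur4572.exists_rur_lift A hA (a₀ : AlgebraicClosure ℚ) a₀.2
      obtain ⟨h, hred⟩ := gaussRedO_const A (Fb N) (Ft A N) hG ⟨a', ha'A⟩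
      refine ⟨a', h, ?_, ?_⟩
      · rw [hred]
        congr 1
        rw [← sub_eq_zero, ← map_sub, IsLocalRing.residue_eq_zero_iff,
          ← ValuationSubring.coe_mem_nonunits_iff]
        have : ((⟨a', ha'A⟩ - a₀ : A) : AlgebraicClosure ℚ) = -((a₀ : AlgebraicClosure ℚ) - a') := by
          push_cast; ring
        rw [this]
        exact A.nonunits.neg_mem hcong
      · rintro _ ⟨τ, hτ, rfl⟩
        rw [SemilinearAut.smul_algebraMap, baseAut_arithmeticGalois]
        exact congrArg _ (hfix τ hτ)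

end Fermat.Agent.S19.Bind6281
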